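/-
S26 / block G (Theorem B, pure field theory, Mathlib only; architect helper187).
LEAF G-20.  Lower bound: the monomials `v0 ^ m * ∏ y i ^ a i`, `a i ≤ m / g`, are independent elements of `V ^ m`.
Proof.  `q := m / g`; for `a : Fin g → Fin (q + 1)` put `x a := v0 ^ m * ∏ i, y i ^ (a i : ℕ)`.
(1) `x a ∈ V ^ m`: `∑ i, a i ≤ g * q ≤ m` (`Nat.mul_div_le`), `x a = v0 ^ (m - ∑ a) * ∏ i, (v0 * y i) ^ a i`
(`Finset.prod_pow_eq_pow_sum`, `mul_pow`, `Finset.prod_mul_distrib`), `∏ i, (v0 * y i) ^ a i ∈ V ^ (∑ a)` (Finset induction,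
`Submodule.pow_mem_pow`, `Submodule.mul_mem_mul`, `pow_add`).
(2) linear independence: `hy : Function.Injective (MvPolynomial.aeval y)`; the monomials
`MvPolynomial.monomial (Finsupp.equivFunOnFinite.symm fun i => (a i : ℕ)) 1` are linearly independent
(`MvPolynomial.basisMonomials`, `LinearIndependent.comp` with an injective index map), `LinearIndependent.map'`;
multiplying by `v0 ^ m ≠ 0` preserves independence (`LinearMap.mulLeft`, injective).
(3) `LinearIndependent.fintype_card_le_finrank` in the finite dimensional space `V ^ m` (`finiteDimensional_pow`),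
`Fintype.card_fun`/`Fintype.card_pi_const`, `Fintype.card_fin`.
-/
import Fermat.Agent.S26.G.Hilb.Fin

set_option autoImplicit false

universe u

namespace Fermat.Agent.S26.G

open Module IntermediateField

variable {K Ω : Type u} [Field K] [Field Ω] [Algebra K Ω]

private theorem box_prod_mem {ι : Type*} (V : Submodule K Ω) (t : Finset ι) (z : ι → Ω)
    (hz : ∀ i, z i ∈ V) (e : ι → ℕ) : ∏ i ∈ t, z i ^ e i ∈ V ^ (∑ i ∈ t, e i) := by
  classical
  induction t using Finset.induction_on with
  | empty =>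
    rw [Finset.prod_empty, Finset.sum_empty, pow_zero]
    exact Submodule.one_le.1 le_rfl
  | insert i t hi ih =>
    rw [Finset.prod_insert hi, Finset.sum_insert hi, pow_add]
    exact Submodule.mul_mem_mul (Submodule.pow_mem_pow V (hz i) _) ih

theorem box_le_hilb {g : ℕ} (y : Fin g → Ω) (hy : AlgebraicIndependent K y) (V : Submodule K Ω)
    [FiniteDimensional K V] {v0 : Ω} (hv0 : v0 ∈ V) (h0 : v0 ≠ 0) (hyV : ∀ i, v0 * y i ∈ V)
    (m : ℕ) : (m / g + 1) ^ g ≤ hilb V m := by
  classical
  set q := m / g with hq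
  have hfd : FiniteDimensional K ↥(V ^ m) := finiteDimensional_pow V m
  let x : (Fin g → Fin (q + 1)) → Ω := fun a => v0 ^ m * ∏ i, y i ^ (a i : ℕ)
  have hmem : ∀ a, x a ∈ V ^ m := by
    intro a
    have hs : ∑ i, (a i : ℕ) ≤ m := by
      calc ∑ i, (a i : ℕ) ≤ ∑ _i : Fin g, q :=
            Finset.sum_le_sum fun i _ => Nat.lt_succ_iff.1 (a i).2
        _ = g * q := by rw [Finset.sum_const, Finset.card_univ, Fintype.card_fin, smul_eq_mul]
        _ ≤ m := Nat.mul_div_le m g
    have e1 : x a = v0 ^ (m - ∑ i, (a i : ℕ)) * ∏ i, (v0 * y i) ^ (a i : ℕ) := by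
      simp only [mul_pow, Finset.prod_mul_distrib, Finset.prod_pow_eq_pow_sum]
      rw [← mul_assoc, ← pow_add, Nat.sub_add_cancel hs]
    have e2 : V ^ m = V ^ (m - ∑ i, (a i : ℕ)) * V ^ (∑ i, (a i : ℕ)) := by
      rw [← pow_add, Nat.sub_add_cancel hs]
    rw [e1, e2]
    exact Submodule.mul_mem_mul (Submodule.pow_mem_pow V hv0 _)
      (box_prod_mem V Finset.univ (fun i => v0 * y i) hyV fun i => (a i : ℕ))
  let idx : (Fin g → Fin (q + 1)) → (Fin g →₀ ℕ) := fun a =>
    Finsupp.equivFunOnFinite.symm fun i => (a i : ℕ)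
  have hidx : Function.Injective idx := by
    intro a b hab
    funext i
    apply Fin.ext
    have h1 := DFunLike.congr_fun hab i
    simpa [idx] using h1
  have h1 : LinearIndependent K (fun a => MvPolynomial.monomial (idx a) (1 : K)) := by
    have h := (MvPolynomial.basisMonomials (Fin g) K).linearIndependent.comp idx hidx
    have e : (⇑(MvPolynomial.basisMonomials (Fin g) K) ∘ idx) =
        fun a => MvPolynomial.monomial (idx a) (1 : K) := by
      funext a
      simp [MvPolynomial.coe_basisMonomials]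
    rwa [e] at h
  have hinj : Function.Injective (MvPolynomial.aeval y : MvPolynomial (Fin g) K →ₐ[K] Ω) := hy
  have h2 := h1.map' (MvPolynomial.aeval y : MvPolynomial (Fin g) K →ₐ[K] Ω).toLinearMap
    (LinearMap.ker_eq_bot.2 hinj)
  have h3 := h2.map' (LinearMap.mulLeft K (v0 ^ m))
    (LinearMap.ker_eq_bot.2 (fun a b hab => mul_left_cancel₀ (pow_ne_zero m h0) hab))
  have hli : LinearIndependent K x := by
    have e : (⇑(LinearMap.mulLeft K (v0 ^ m)) ∘
        (⇑(MvPolynomial.aeval y : MvPolynomial (Fin g) K →ₐ[K] Ω).toLinearMap ∘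
          fun a => MvPolynomial.monomial (idx a) (1 : K))) = x := by
      funext a
      simp only [Function.comp_apply, AlgHom.toLinearMap_apply, MvPolynomial.aeval_monomial,
        map_one, one_mul, LinearMap.mulLeft_apply, x]
      congr 1
      rw [Finsupp.prod_fintype _ _ (fun i => pow_zero _)]
      rfl
    rwa [e] at h3
  have hli' : LinearIndependent K (fun a => (⟨x a, hmem a⟩ : ↥(V ^ m))) := by
    apply LinearIndependent.of_comp (V ^ m).subtype
    exact hli
  have hcard := hli'.fintype_card_le_finrank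
  rw [Fintype.card_fun, Fintype.card_fin, Fintype.card_fin] at hcard
  exact hcard

end Fermat.Agent.S26.G
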