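/-
S26 / block G (Theorem B, pure field theory, Mathlib only; architect helper187).
LEAF G-21.  A transcendence basis can be chosen among the ratios `v / v0`.
Proof.  `S := (fun v => v / v0) '' (V : Set Ω)`; `IntermediateField.adjoin K S = ⊤` (`ratioField_span_eq_adjoin_div` with
`Submodule.span_eq V`); hence `Algebra.IsAlgebraic (Algebra.adjoin K S) Ω` (see the proof around line 355 of
Mathlib/FieldTheory/SeparableClosure.lean: `IntermediateField.isAlgebraic_adjoin_iff_top`);
`exists_isTranscendenceBasis_subset S` gives `t ⊆ S`; `IsTranscendenceBasis.cardinalMk_eq` with `hy` gives `#t = g`, so there is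
an equivalence `e : Fin g ≃ t` (`Cardinal.eq`, `Cardinal.mk_fin`); `y' i := (e i : Ω)`; `AlgebraicIndependent.comp`.
-/
import Fermat.Agent.S26.G.Ratio.Adjoin

set_option autoImplicit false

universe u

namespace Fermat.Agent.S26.G

open Module IntermediateField

variable {K Ω : Type u} [Field K] [Field Ω] [Algebra K Ω]

theorem exists_algebraicIndependent_ratios {g : ℕ} (y : Fin g → Ω)
    (hy : IsTranscendenceBasis K y) (V : Submodule K Ω) (hgen : ratioField V = ⊤) {v0 : Ω}
    (hv0 : v0 ∈ V) (h0 : v0 ≠ 0) :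
    ∃ y' : Fin g → Ω, AlgebraicIndependent K y' ∧ ∀ i, v0 * y' i ∈ V := by
  set S : Set Ω := (fun v => v / v0) '' (V : Set Ω) with hS
  have hadj : IntermediateField.adjoin K S = ⊤ := by
    have h := ratioField_span_eq_adjoin_div (K := K) (V : Set Ω) (v0 := v0)
      (by rw [Submodule.span_eq]; exact hv0) h0
    rw [Submodule.span_eq, hgen] at h
    exact h.symm
  have halg : Algebra.IsAlgebraic (Algebra.adjoin K S) Ω := by
    rw [← isAlgebraic_adjoin_iff_top, hadj, Algebra.isAlgebraic_iff_isIntegral]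
    exact Algebra.isIntegral_of_surjective topEquiv.surjective
  obtain ⟨t, hts, ht⟩ := exists_isTranscendenceBasis_subset (R := K) S
  have hcard : Cardinal.lift.{u} (Cardinal.mk (Fin g)) = Cardinal.lift.{0} (Cardinal.mk t) :=
    hy.lift_cardinalMk_eq ht
  obtain ⟨e⟩ := Cardinal.lift_mk_eq'.1 hcard
  refine ⟨fun i => (e i : Ω), ht.1.comp e e.injective, fun i => ?_⟩
  obtain ⟨v, hv, hve⟩ := hts (e i).2
  show v0 * (e i : Ω) ∈ V
  rw [← hve]
  have : v0 * (v / v0) = v := by field_simp
  show v0 * (v / v0) ∈ V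
  rw [this]
  exact hv

end Fermat.Agent.S26.G
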