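/-
S26 / block G (Theorem B, pure field theory, Mathlib only; architect helper187).
ASSEMBLY G-22 (G1b).  `m ^ g ≤ g ^ g * H_V m`.
Proof.  `exists_algebraicIndependent_ratios`, `box_le_hilb`, and `m ≤ g * (m / g + 1)` for `g > 0`
(`Nat.lt_mul_div_succ`/`Nat.div_add_mod`), `Nat.pow_le_pow_left`, `mul_pow`; `g = 0`: `pow_zero`.
-/
import Fermat.Agent.S26.G.Low.Box
import Fermat.Agent.S26.G.Low.Choice

set_option autoImplicit false

universe u

namespace Fermat.Agent.S26.G

open Module IntermediateField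

variable {K Ω : Type u} [Field K] [Field Ω] [Algebra K Ω]

/-- **G1b.** -/
theorem pow_le_mul_hilb {g : ℕ} (y : Fin g → Ω) (hy : IsTranscendenceBasis K y)
    (V : Submodule K Ω) [FiniteDimensional K V] (hgen : ratioField V = ⊤) {v0 : Ω}
    (hv0 : v0 ∈ V) (h0 : v0 ≠ 0) (m : ℕ) : m ^ g ≤ g ^ g * hilb V m := by
  obtain ⟨y', hy', hyV⟩ := exists_algebraicIndependent_ratios y hy V hgen hv0 h0
  have hbox := box_le_hilb y' hy' V hv0 h0 hyV m
  rcases Nat.eq_zero_or_pos g with rfl | hg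
  · simpa using hbox
  · have h1 : m ≤ g * (m / g + 1) := (Nat.lt_mul_div_succ m hg).le
    calc m ^ g ≤ (g * (m / g + 1)) ^ g := Nat.pow_le_pow_left h1 g
      _ = g ^ g * (m / g + 1) ^ g := mul_pow _ _ _
      _ ≤ g ^ g * hilb V m := Nat.mul_le_mul_left _ hbox

end Fermat.Agent.S26.G
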